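import Mathlib
import Fermat.Agent.MUL.S48.W.A.Dict.Seats
import Fermat.Agent.MUL.F3.DictC.EmbFStab
import Fermat.Agent.MUL.F4.UC.KLevel

section MergeWrap_S48_W_A_Dict_Stab -- from S48/W/A/Dict/Stab.lean

set_option autoImplicit false
set_option linter.unusedVariables false
set_option linter.unusedSectionVars false

noncomputable section

namespace Fermat.Agent.S48WA2

open UpperHalfPlane CongruenceSubgroup ModularCurve AlgebraicCurve Fermat.Agent.F3Dict
open Fermat.Agent.S48W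
open scoped MatrixGroups ModularForm

/-! ### the `q`-series `wp_a` determines `± a` -/

/-- the part of the coefficient `wpCoeff M a n` that depends on `a`. -/
def stabPart (M : ℕ) (a : ZMod M) (n : ℕ) : ℤ :=
  ∑ d ∈ n.divisors,
    ((if ((d : ℕ) : ZMod M) = a then ((n / d : ℕ) : ℤ) else 0)
      + (if ((d : ℕ) : ZMod M) = -a then ((n / d : ℕ) : ℤ) else 0))

theorem stabPart_eq_of_wpSeries_eq {M : ℕ} {a b : ZMod M} (h : wpSeries M a = wpSeries M b)
    (n : ℕ) : stabPart M a n = stabPart M b n := by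
  have h1 := congrArg (PowerSeries.coeff n) h
  simp only [wpSeries, PowerSeries.coeff_mk] at h1
  unfold wpCoeff at h1
  unfold stabPart
  linarith

theorem stabPart_pos_of_dvd {M : ℕ} {a : ZMod M} {n d : ℕ} (hn : 0 < n) (hd : d ∣ n)
    (h : ((d : ℕ) : ZMod M) = a ∨ ((d : ℕ) : ZMod M) = -a) : 0 < stabPart M a n := by
  unfold stabPart
  have hdm : d ∈ n.divisors := Nat.mem_divisors.mpr ⟨hd, hn.ne'⟩
  have hq : (0 : ℤ) < ((n / d : ℕ) : ℤ) := by
    have : 0 < n / d := Nat.div_pos (Nat.le_of_dvd hn hd) (Nat.pos_of_dvd_of_pos hd hn)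
    exact_mod_cast this
  refine Finset.sum_pos' (fun i _ => ?_) ⟨d, hdm, ?_⟩
  · have h1 : (0 : ℤ) ≤ ((n / i : ℕ) : ℤ) := Int.natCast_nonneg _
    split_ifs <;> linarith
  · have h1 : (0 : ℤ) ≤ ((n / d : ℕ) : ℤ) := hq.le
    rcases h with h | h
    · rw [if_pos h]
      split_ifs <;> linarith
    · rw [if_pos h]
      split_ifs <;> linarith

theorem exists_dvd_of_stabPart_pos {M : ℕ} {a : ZMod M} {n : ℕ} (h : 0 < stabPart M a n) :
    ∃ d : ℕ, d ∣ n ∧ (((d : ℕ) : ZMod M) = a ∨ ((d : ℕ) : ZMod M) = -a) := by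
  by_contra hcon
  push Not at hcon
  have : stabPart M a n = 0 := by
    unfold stabPart
    refine Finset.sum_eq_zero (fun d hd => ?_)
    have hd' := Nat.dvd_of_mem_divisors hd
    obtain ⟨h1, h2⟩ := hcon d hd'
    rw [if_neg h1, if_neg h2, add_zero]
  rw [this] at h
  exact lt_irrefl _ h

/-- there is a positive integer congruent to `± a`. -/
theorem exists_stab_rep (M : ℕ) [NeZero M] (a : ZMod M) (ha : a ≠ 0) :
    ∃ n : ℕ, 0 < n ∧ (((n : ℕ) : ZMod M) = a ∨ ((n : ℕ) : ZMod M) = -a) := by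
  refine ⟨a.val, ?_, Or.inl (ZMod.natCast_zmod_val a)⟩
  rcases Nat.eq_zero_or_pos a.val with h | h
  · exact absurd ((ZMod.val_eq_zero a).mp h) ha
  · exact h

open Classical in
/-- the least positive integer congruent to `± a`. -/
def stabMin (M : ℕ) [NeZero M] (a : ZMod M) (ha : a ≠ 0) : ℕ :=
  Nat.find (exists_stab_rep M a ha)

open Classical in
theorem stabMin_spec (M : ℕ) [NeZero M] (a : ZMod M) (ha : a ≠ 0) :
    0 < stabMin M a ha ∧
      (((stabMin M a ha : ℕ) : ZMod M) = a ∨ ((stabMin M a ha : ℕ) : ZMod M) = -a) :=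
  Nat.find_spec (exists_stab_rep M a ha)

open Classical in
theorem stabMin_le (M : ℕ) [NeZero M] (a : ZMod M) (ha : a ≠ 0) {n : ℕ} (hn : 0 < n)
    (h : ((n : ℕ) : ZMod M) = a ∨ ((n : ℕ) : ZMod M) = -a) : stabMin M a ha ≤ n :=
  Nat.find_min' (exists_stab_rep M a ha) ⟨hn, h⟩

theorem stabMin_le_stabMin (M : ℕ) [NeZero M] {a b : ZMod M} (ha : a ≠ 0) (hb : b ≠ 0)
    (h : ∀ n : ℕ, stabPart M a n = stabPart M b n) : stabMin M b hb ≤ stabMin M a ha := by
  obtain ⟨hpos, hcong⟩ := stabMin_spec M a ha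
  have h1 : 0 < stabPart M a (stabMin M a ha) := stabPart_pos_of_dvd hpos dvd_rfl hcong
  rw [h] at h1
  obtain ⟨d, hd, hdb⟩ := exists_dvd_of_stabPart_pos h1
  have hd0 : 0 < d := Nat.pos_of_dvd_of_pos hd hpos
  exact (stabMin_le M b hb hd0 hdb).trans (Nat.le_of_dvd hpos hd)

theorem wpCoeff_neg (M : ℕ) (a : ZMod M) (n : ℕ) : wpCoeff M (-a) n = wpCoeff M a n := by
  unfold wpCoeff
  congr 2
  refine Finset.sum_congr rfl (fun d _ => ?_)
  rw [neg_neg, add_comm]

/-- **`wp_a = wp_b ↔ a = ± b`.** -/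
theorem wpSeries_eq_iff (M : ℕ) [NeZero M] {a b : ZMod M} (ha : a ≠ 0) (hb : b ≠ 0) :
    wpSeries M a = wpSeries M b ↔ a = b ∨ a = -b := by
  constructor
  · intro h
    have hab : ∀ n : ℕ, stabPart M a n = stabPart M b n := stabPart_eq_of_wpSeries_eq h
    have h1 := stabMin_le_stabMin M ha hb hab
    have h2 := stabMin_le_stabMin M hb ha (fun n => (hab n).symm)
    have heq : stabMin M a ha = stabMin M b hb := le_antisymm h2 h1
    obtain ⟨-, hca⟩ := stabMin_spec M a ha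
    obtain ⟨-, hcb⟩ := stabMin_spec M b hb
    rw [heq] at hca
    rcases hca with hca | hca <;> rcases hcb with hcb | hcb
    · exact Or.inl (hca.symm.trans hcb)
    · exact Or.inr (hca.symm.trans hcb)
    · right
      rw [← hcb, hca, neg_neg]
    · left
      have : -a = -b := hca.symm.trans hcb
      exact neg_injective this
  · rintro (rfl | rfl)
    · rfl
    · unfold wpSeries
      congr 1
      funext n
      exact wpCoeff_neg M b n

/-! ### `-1` acts trivially -/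

theorem stab_neg_inv (γ : SL(2, ℤ)) : (-γ)⁻¹ = -γ⁻¹ := by
  apply inv_eq_of_mul_eq_one_left
  rw [neg_mul_neg, inv_mul_cancel]

theorem stab_neg_smul_fun (γ : SL(2, ℤ)) (f : Fun) : (-γ) • f = γ • f := by
  ext τ
  show f ((-γ)⁻¹ • τ) = f (γ⁻¹ • τ)
  rw [stab_neg_inv, ModularGroup.SL_neg_smul]

theorem stab_neg_smul_LH (M : ℕ) [NeZero M] (γ : SL(2, ℤ)) (x : LH M) : (-γ) • x = γ • x := by
  have hAH : ∀ f : AH M, (-γ) • f = γ • f := fun f => Subtype.ext (stab_neg_smul_fun γ f)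
  obtain ⟨a, b, -, rfl⟩ := IsFractionRing.div_surjective (A := AH M) x
  rw [div_eq_mul_inv, smul_mul', smul_inv'', LH.smul_algebraMap, LH.smul_algebraMap, hAH a,
    hAH b, smul_mul', smul_inv'', LH.smul_algebraMap, LH.smul_algebraMap]

/-! ### `Γ₁(M)` fixes the generators -/

theorem stab_smul_jdLH (M d : ℕ) [NeZero M] [NeZero d] (hd : d ∣ M) {γ : SL(2, ℤ)}
    (hγ : γ ∈ Gamma0 M) : γ • jdLH M d hd = jdLH M d hd := by
  unfold jdLH
  rw [LH.smul_algebraMap]
  congr 1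
  apply Subtype.ext
  exact (mem_Gamma0_iff_forall_smul_jd M γ).mp hγ d inferInstance hd

theorem stab_smul_jdLH_iff (M : ℕ) [NeZero M] (γ : SL(2, ℤ)) :
    γ • jdLH M M dvd_rfl = jdLH M M dvd_rfl ↔ γ ∈ Gamma0 M := by
  constructor
  · intro h
    unfold jdLH at h
    rw [LH.smul_algebraMap] at h
    have h1 := IsFractionRing.injective (AH M) (LH M) h
    have h2 : γ • jd M = jd M := congrArg Subtype.val h1
    exact (smul_jd_eq_iff M γ).mp h2
  · exact stab_smul_jdLH M M dvd_rfl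

theorem LH.ofFun_congr {M : ℕ} [NeZero M] {f g : Fun} (hf : IsAH M f) (hg : IsAH M g)
    (h : f = g) : LH.ofFun f hf = LH.ofFun g hg := by
  subst h
  rfl

theorem stab_Gamma1_le_Gamma0 {M : ℕ} {γ : SL(2, ℤ)} (hγ : γ ∈ Gamma1 M) : γ ∈ Gamma0 M := by
  rw [Gamma1_mem] at hγ
  rw [Gamma0_mem]
  exact hγ.2.2

theorem stab_smul_Fr {M : ℕ} [NeZero M] (D : FrickeData M) {γ : SL(2, ℤ)} (hγ : γ ∈ Gamma0 M)
    (a : ZMod M) (ha : a ≠ 0) :
    γ • D.Fr a = D.Fr ((((γ⁻¹ : SL(2, ℤ)) 0 0 : ℤ) : ZMod M) * a) := by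
  have h := D.smul γ⁻¹ (inv_mem hγ) a ha
  rwa [inv_inv] at h

theorem stab_smul_frLH {M : ℕ} [NeZero M] (D : FrickeData M) {γ : SL(2, ℤ)}
    (hγ : γ ∈ Gamma1 M) (a : ZMod M) (ha : a ≠ 0) : γ • D.frLH a ha = D.frLH a ha := by
  unfold FrickeData.frLH
  rw [LH.smul_ofFun]
  apply LH.ofFun_congr
  rw [stab_smul_Fr D (stab_Gamma1_le_Gamma0 hγ) a ha]
  have h1 := inv_mem hγ
  rw [Gamma1_mem] at h1
  rw [h1.1, one_mul]

/-- `Γ₁(M)` acts trivially on `ℂ(j_d, Fr a)`. -/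
theorem stab_smul_genField1 {M : ℕ} [NeZero M] (D : FrickeData M) {γ : SL(2, ℤ)}
    (hγ : γ ∈ Gamma1 M) {y : LH M} (hy : y ∈ genField1 D) : γ • y = y := by
  unfold genField1 at hy
  induction hy using IntermediateField.adjoin_induction with
  | mem x hx =>
    rcases hx with ⟨d, hd0, hd, rfl⟩ | ⟨a, ha, rfl⟩
    · exact stab_smul_jdLH M d hd (stab_Gamma1_le_Gamma0 hγ)
    · exact stab_smul_frLH D hγ a ha
  | algebraMap c => exact smul_algebraMap γ c
  | add x y _ _ hx hy => rw [smul_add, hx, hy]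
  | inv x _ hx => rw [smul_inv'', hx]
  | mul x y _ _ hx hy => rw [smul_mul', hx, hy]

/-- `± Γ₁(M)` acts trivially on `ℂ(j_d, Fr a)`. -/
theorem stab_smul_genField1_pm {M : ℕ} [NeZero M] (D : FrickeData M) {γ : SL(2, ℤ)}
    (hγ : γ ∈ Gamma1pm M) {y : LH M} (hy : y ∈ genField1 D) : γ • y = y := by
  rcases hγ with hγ | hγ
  · exact stab_smul_genField1 D hγ hy
  · rw [← stab_neg_smul_LH M γ y]
    exact stab_smul_genField1 D hγ hy

/-! ### the Fricke functions determine `± a` -/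

theorem stab_eisQuot_ne_zero : eisQuot ≠ 0 := by
  unfold eisQuot
  refine mul_ne_zero ?_ ?_
  · exact HahnSeries.single_ne_zero one_ne_zero
  · intro h
    have h0 : HahnSeries.ofPowerSeries ℤ ℚ
        ((eisenstein4 * eis6 * dedekindEtaUnitInv).map (Int.castRingHom ℚ)) =
        HahnSeries.ofPowerSeries ℤ ℚ 0 := by rw [h, map_zero]
    have h1 := HahnSeries.ofPowerSeries_injective h0
    have h2 := congrArg PowerSeries.constantCoeff h1
    have h6 : PowerSeries.constantCoeff eis6 = 1 := by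
      unfold eis6
      rw [← PowerSeries.coeff_zero_eq_constantCoeff_apply, PowerSeries.coeff_mk, if_pos rfl]
    rw [← PowerSeries.coeff_zero_eq_constantCoeff_apply, PowerSeries.coeff_map,
      PowerSeries.coeff_zero_eq_constantCoeff_apply] at h2
    simp only [map_mul, constantCoeff_eisenstein4, h6, constantCoeff_dedekindEtaUnitInv,
      map_one, map_zero, mul_one] at h2
    exact one_ne_zero h2

theorem stab_wpSeries_of_fricke (M : ℕ) [NeZero M] {a b : ZMod M}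
    (h : fricke M a = fricke M b) : wpSeries M a = wpSeries M b := by
  unfold fricke at h
  have hq : qExpand ℚ M eisQuot ≠ 0 := by
    intro h0
    exact stab_eisQuot_ne_zero ((qExpand ℚ M).injective (by rw [h0, map_zero]))
  have h1 := mul_left_cancel₀ hq h
  have h2 := HahnSeries.ofPowerSeries_injective h1
  ext n
  have h3 := congrArg (PowerSeries.coeff n) h2
  rw [PowerSeries.coeff_map, PowerSeries.coeff_map] at h3
  exact Int.cast_injective h3

theorem stab_Fr_eq {M : ℕ} [NeZero M] (D : FrickeData M) {a b : ZMod M} (ha : a ≠ 0)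
    (hb : b ≠ 0) (h : D.Fr a = D.Fr b) : a = b ∨ a = -b := by
  have h1 := D.hasExp a ha
  have h2 := D.hasExp b hb
  rw [h] at h1
  have h3 := h1.unique h2
  have h4 := (qExpand ℂ M).injective h3
  have h5 := (coeffEmb ℂ).injective h4
  exact (wpSeries_eq_iff M ha hb).mp (stab_wpSeries_of_fricke M h5)

/-! ### `φ` on `j_d` -/

theorem IsPhi.stab_jdBar1 {M : ℕ} [NeZero M] {φ : FC1 M →ₐ[ℂ] LH M} (hφ : IsPhi M φ)
    (d : ℕ) [NeZero d] (hd : d ∣ M) :
    φ (Fermat.Agent.S48WA2.jdBar1 M d hd) = jdLH M d hd := by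
  apply expLH_injective M
  rw [hφ, expLH_jdLH]
  have := EmbFHom.qExpand_coeffEmb_jqd M d
  rw [ModularCurve.qExpandAlgHomC_apply] at this
  exact this

/-! ### the stabiliser -/

theorem stab_mem_Gamma1_of {M : ℕ} {g : SL(2, ℤ)} (hg : g ∈ Gamma0 M)
    (h : ((g 0 0 : ℤ) : ZMod M) = 1) : g ∈ Gamma1 M := by
  rw [Gamma0_mem] at hg
  rw [Gamma1_mem]
  refine ⟨h, ?_, hg⟩
  have hdet : g 0 0 * g 1 1 - g 0 1 * g 1 0 = 1 := by
    have := g.det_coe
    rwa [Matrix.det_fin_two] at this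
  have h2 := congrArg (Int.cast : ℤ → ZMod M) hdet
  push_cast at h2
  rw [hg, h, mul_zero, sub_zero, one_mul] at h2
  exact h2

theorem stab_unit_of_Gamma0 {M : ℕ} {g : SL(2, ℤ)} (hg : g ∈ Gamma0 M) :
    ((g 0 0 : ℤ) : ZMod M) * ((g 1 1 : ℤ) : ZMod M) = 1 := by
  rw [Gamma0_mem] at hg
  have hdet : g 0 0 * g 1 1 - g 0 1 * g 1 0 = 1 := by
    have := g.det_coe
    rwa [Matrix.det_fin_two] at this
  have h2 := congrArg (Int.cast : ℤ → ZMod M) hdet
  push_cast at h2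
  rw [hg, mul_zero, sub_zero] at h2
  exact h2

/-- **the stabiliser of `φ (FC1 M)` is `± Γ₁(M)`** (with the hypothesis `hgen` of seat A2-EMB). -/
theorem IsPhi.mem_Gamma1pm_iff_of_gen {M : ℕ} [NeZero M] (hM : 3 ≤ M) (D : FrickeData M)
    {φ : FC1 M →ₐ[ℂ] LH M} (hφ : IsPhi M φ) (hgen : ∀ x : FC1 M, φ x ∈ genField1 D)
    (γ : SL(2, ℤ)) : γ ∈ Gamma1pm M ↔ ∀ x : FC1 M, γ • φ x = φ x := by
  constructor
  · intro hγ x
    exact stab_smul_genField1_pm D hγ (hgen x)
  · intro h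
    -- `γ ∈ Γ₀(M)`
    have h0 : γ ∈ Gamma0 M := by
      rw [← stab_smul_jdLH_iff M γ, ← hφ.stab_jdBar1 M dvd_rfl]
      exact h _
    have hg : γ⁻¹ ∈ Gamma0 M := inv_mem h0
    have : Fact (1 < M) := ⟨by omega⟩
    have h1 : (1 : ZMod M) ≠ 0 := one_ne_zero
    set α : ZMod M := (((γ⁻¹ : SL(2, ℤ)) 0 0 : ℤ) : ZMod M) with hα
    have hα0 : α ≠ 0 := by
      intro h0'
      have := stab_unit_of_Gamma0 hg
      rw [← hα, h0', zero_mul] at this
      exact h1 this.symm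
    -- `Fr α = Fr 1`
    have hFr : D.Fr α = D.Fr 1 := by
      have e1 := stab_smul_Fr D h0 1 h1
      rw [mul_one] at e1
      rw [← e1]
      have e2 := h (Fermat.Agent.S48WA2.frickeBar1 M 1 h1)
      rw [IsPhi.frickeBar1 hφ D 1 h1] at e2
      unfold FrickeData.frLH at e2
      rw [LH.smul_ofFun] at e2
      exact LH.ofFun_injective _ _ e2
    rcases stab_Fr_eq D hα0 h1 hFr with h2 | h2
    · -- `γ⁻¹ ∈ Γ₁(M)`
      have := inv_mem (stab_mem_Gamma1_of hg h2)
      rw [inv_inv] at this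
      exact Or.inl this
    · -- `-γ⁻¹ ∈ Γ₁(M)`
      right
      have hg' : -γ⁻¹ ∈ Gamma0 M := by
        rw [Gamma0_mem] at hg ⊢
        rw [Matrix.SpecialLinearGroup.coe_neg, Matrix.neg_apply, Int.cast_neg, hg, neg_zero]
      have h3 : ((((-γ⁻¹ : SL(2, ℤ)) 0 0 : ℤ)) : ZMod M) = 1 := by
        rw [Matrix.SpecialLinearGroup.coe_neg, Matrix.neg_apply, Int.cast_neg, ← hα, h2, neg_neg]
      have := inv_mem (stab_mem_Gamma1_of hg' h3)
      rw [← stab_neg_inv, inv_inv] at this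
      exact this

end Fermat.Agent.S48WA2
end
end MergeWrap_S48_W_A_Dict_Stab
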